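import Fermat.Prelude.Def_GroupCohomology_ContinuousUnramified

/-!
# S55 / block F2 / task B3: fields unramified outside `S` (the `S`-levels of `Gal(Qbar/Q)`)
-/

set_option autoImplicit false
open CategoryTheory Module groupCohomology ExtCitation
open scoped Pointwise

namespace Fermat.Agent.PT

section general
variable {K L : Type*} [Field K] [Field L] [Algebra K L]

theorem Levels_mem_nonunits_iff (A : ValuationSubring L) (x : L) :
    x ∈ A.nonunits ↔ x = 0 ∨ x⁻¹ ∉ A := by
  rw [ValuationSubring.mem_nonunits_iff]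
  by_cases hx : x = 0
  · simp [hx]
  · simp only [hx, false_or]
    rw [← ValuationSubring.valuation_le_one_iff, map_inv₀, not_le]
    have h0 : A.valuation x ≠ 0 := (Valuation.ne_zero_iff _).2 hx
    rw [one_lt_inv₀ (zero_lt_iff.2 h0)]

theorem Levels_mem_inertiaSubgroupIn_iff (A : ValuationSubring L) (σ : L ≃ₐ[K] L) :
    σ ∈ A.inertiaSubgroupIn K ↔ σ • A = A ∧ ∀ x ∈ A, σ x - x ∈ A.nonunits := by
  constructor
  · rintro ⟨τ, hτ, rfl⟩
    refine ⟨τ.2, fun x hx => ?_⟩
    have h1 : MulSemiringAction.toRingAut (A.decompositionSubgroup K)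
        (IsLocalRing.ResidueField A) τ = 1 := hτ
    have h2 : τ • IsLocalRing.residue A ⟨x, hx⟩ = IsLocalRing.residue A ⟨x, hx⟩ := by
      have := congrArg (fun f => f (IsLocalRing.residue A ⟨x, hx⟩)) h1
      simpa using this
    rw [← IsLocalRing.ResidueField.residue_smul] at h2
    have h3 : (τ • (⟨x, hx⟩ : A)) - ⟨x, hx⟩ ∈ IsLocalRing.maximalIdeal A := by
      rw [← IsLocalRing.residue_eq_zero_iff, map_sub, h2, sub_self]
    rw [← ValuationSubring.coe_mem_nonunits_iff] at h3
    exact h3
  · rintro ⟨hdec, h⟩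
    have hdec' : σ ∈ A.decompositionSubgroup K := hdec
    refine ⟨⟨σ, hdec'⟩, ?_, rfl⟩
    change _ ∈ MonoidHom.ker _
    rw [MonoidHom.mem_ker]
    apply RingEquiv.ext
    intro xbar
    obtain ⟨x, rfl⟩ := IsLocalRing.residue_surjective xbar
    change (⟨σ, hdec'⟩ : A.decompositionSubgroup K) • IsLocalRing.residue A x
      = IsLocalRing.residue A x
    rw [← IsLocalRing.ResidueField.residue_smul, ← sub_eq_zero, ← map_sub,
      IsLocalRing.residue_eq_zero_iff, ← ValuationSubring.coe_mem_nonunits_iff]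
    exact h x x.2

theorem Levels_smul_mem_nonunits (A : ValuationSubring L) (τ : L ≃ₐ[K] L) {x : L}
    (hx : x ∈ A.nonunits) : τ x ∈ (τ • A).nonunits := by
  rw [Levels_mem_nonunits_iff] at hx ⊢
  rcases hx with rfl | hx
  · left; simp
  · right
    intro h
    apply hx
    rw [ValuationSubring.mem_pointwise_smul_iff_inv_smul_mem] at h
    have : τ⁻¹ • (τ x)⁻¹ = x⁻¹ := by
      rw [← map_inv₀]
      change (τ⁻¹ * τ) x⁻¹ = x⁻¹
      simp
    rwa [this] at h

theorem Levels_conj_mem_inertiaSubgroupIn (A : ValuationSubring L) (τ g : L ≃ₐ[K] L)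
    (hg : g ∈ A.inertiaSubgroupIn K) : τ * g * τ⁻¹ ∈ (τ • A).inertiaSubgroupIn K := by
  rw [Levels_mem_inertiaSubgroupIn_iff] at hg ⊢
  obtain ⟨h1, h2⟩ := hg
  refine ⟨?_, fun x hx => ?_⟩
  · rw [← mul_smul, inv_mul_cancel_right, mul_smul, h1]
  · rw [ValuationSubring.mem_pointwise_smul_iff_inv_smul_mem] at hx
    have := Levels_smul_mem_nonunits A τ (h2 _ hx)
    have e : τ (g (τ⁻¹ • x) - τ⁻¹ • x) = (τ * g * τ⁻¹) x - x := by
      rw [map_sub]
      congr 1
      change (τ * τ⁻¹) x = x
      simp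
    rwa [e] at this

theorem Levels_smul_liesOverPrime (A : ValuationSubring L) (τ : L ≃ₐ[K] L) (q : ℕ)
    (hA : A.LiesOverPrime q) : (τ • A).LiesOverPrime q := by
  have := Levels_smul_mem_nonunits A τ hA
  rwa [map_natCast] at this

theorem Levels_mem_of_pow_eq_one (A : ValuationSubring L) {n : ℕ} (hn : n ≠ 0) {z : L}
    (hz : z ^ n = 1) : z ∈ A := by
  rcases A.mem_or_inv_mem z with h | h
  · exact h
  · have : z = z⁻¹ ^ (n - 1) := by
      have hz0 : z ≠ 0 := by
        rintro rfl
        simp [hn] at hz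
      obtain ⟨m, rfl⟩ := Nat.exists_eq_succ_of_ne_zero hn
      simp only [Nat.succ_eq_add_one, Nat.add_sub_cancel]
      rw [pow_succ] at hz
      rw [inv_pow]
      exact (eq_inv_of_mul_eq_one_right hz)
    rw [this]
    exact pow_mem h _

theorem Levels_inertia_fix_root (A : ValuationSubring L) {n q : ℕ} (hn : n ≠ 0)
    (hnq : Nat.Coprime n q) (hA : A.LiesOverPrime q) {g : L ≃ₐ[K] L}
    (hg : g ∈ A.inertiaSubgroupIn K) {z : L} (hz : z ^ n = 1) : g z = z := by
  rw [Levels_mem_inertiaSubgroupIn_iff] at hg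
  have hzA : z ∈ A := Levels_mem_of_pow_eq_one A hn hz
  have hgz : (g z) ^ n = 1 := by rw [← map_pow, hz, map_one]
  have hgzA : g z ∈ A := Levels_mem_of_pow_eq_one A hn hgz
  by_contra hne
  set a : A := ⟨z, hzA⟩ with ha
  set b : A := ⟨g z, hgzA⟩ with hb
  have han : a ^ n = 1 := Subtype.ext hz
  have hbn : b ^ n = 1 := Subtype.ext hgz
  have hres : IsLocalRing.residue A b = IsLocalRing.residue A a := by
    rw [← sub_eq_zero, ← map_sub, IsLocalRing.residue_eq_zero_iff,
      ← ValuationSubring.coe_mem_nonunits_iff]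
    exact hg.2 z hzA
  obtain ⟨m, rfl⟩ := Nat.exists_eq_succ_of_ne_zero hn
  set e : A := b * a ^ m with he
  have hen : e ^ (m + 1) = 1 := by
    rw [he, mul_pow, hbn, one_mul, ← pow_mul, mul_comm, pow_mul, han, one_pow]
  have he1 : e ≠ 1 := by
    intro h
    apply hne
    have h2 : b * a ^ (m + 1) = a := by
      rw [pow_succ, ← mul_assoc, ← he, h, one_mul]
    rw [han, mul_one] at h2
    exact congrArg Subtype.val h2
  have hsum : ∑ i ∈ Finset.range (m + 1), e ^ i = 0 := by
    have := geom_sum_mul e (m + 1)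
    rw [hen, sub_self] at this
    exact (mul_eq_zero.1 this).resolve_right (sub_ne_zero.2 he1)
  have hrese : IsLocalRing.residue A e = 1 := by
    rw [he, map_mul, map_pow, hres, ← pow_succ', ← map_pow, han, map_one]
  have hn0 : ((m + 1 : ℕ) : IsLocalRing.ResidueField A) = 0 := by
    have := congrArg (IsLocalRing.residue A) hsum
    rw [map_sum, map_zero] at this
    simpa [hrese] using this
  have hq0 : ((q : ℕ) : IsLocalRing.ResidueField A) = 0 := by
    have h1 : ((q : A) : L) ∈ A.nonunits := by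
      have : ((q : A) : L) = (q : L) := by simp
      rw [this]; exact hA
    rw [ValuationSubring.coe_mem_nonunits_iff, ← IsLocalRing.residue_eq_zero_iff, map_natCast] at h1
    exact h1
  have h1 : ((1 : ℕ) : IsLocalRing.ResidueField A) = 0 := by
    have hb := Nat.gcd_eq_gcd_ab (m + 1) q
    rw [Nat.Coprime] at hnq
    rw [hnq] at hb
    have := congrArg (Int.cast : ℤ → IsLocalRing.ResidueField A) hb
    push_cast at this
    push_cast at hn0
    rw [hn0, hq0] at this
    simp at this
  simp at h1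

end general

theorem Levels_isGalois_Qbar (inst : Algebra ℚ (AlgebraicClosure ℚ)) :
    @IsGalois ℚ _ (AlgebraicClosure ℚ) _ inst := by
  have h : inst = AlgebraicClosure.instAlgebra ℚ := Subsingleton.elim _ _
  rw [h]
  infer_instance

/-- Every `S`-level is refined by a normal `S`-level (normal closure). -/
theorem exists_normal_level (S : Finset Nat.Primes)
    (F : IntermediateField ℚ (AlgebraicClosure ℚ)) (hF : F.IsUnramifiedOutside S) :
    ∃ F' : IntermediateField ℚ (AlgebraicClosure ℚ), F ≤ F' ∧ F'.IsUnramifiedOutside S ∧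
      F'.fixingSubgroup.Normal := by
  have := hF.1
  have hgal : IsGalois ℚ (AlgebraicClosure ℚ) := Levels_isGalois_Qbar inferInstance
  refine ⟨_, F.le_normalClosure,
    ⟨normalClosure.is_finiteDimensional _ _ _, fun q hq A hA => ?_⟩, ?_⟩
  · rw [← IntermediateField.le_iff_le, IntermediateField.normalClosure_def'', iSup_le_iff]
    intro σ
    rw [IntermediateField.le_iff_le]
    intro g hg
    rw [IntermediateField.mem_fixingSubgroup_iff]
    rintro x ⟨y, hy, rfl⟩
    have h1 := Levels_conj_mem_inertiaSubgroupIn A σ⁻¹ g hg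
    have h2 := hF.2 q hq (σ⁻¹ • A) (Levels_smul_liesOverPrime A σ⁻¹ q hA) h1
    rw [IntermediateField.mem_fixingSubgroup_iff] at h2
    have h3 := h2 y hy
    have h4 : σ ((σ⁻¹ * g * σ⁻¹⁻¹) y) = g (σ y) := by
      rw [inv_inv]
      change (σ * (σ⁻¹ * g * σ)) y = g (σ y)
      rw [mul_assoc, mul_inv_cancel_left]
      rfl
    rw [h3] at h4
    exact h4.symm
  · have := IsGalois.normalClosure ℚ F (AlgebraicClosure ℚ)
    exact IsGalois.fixingSubgroup_normal_of_isGalois _

/-- Same for all finite levels. -/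
theorem exists_normal_level_all
    (F : IntermediateField ℚ (AlgebraicClosure ℚ)) (hF : FiniteDimensional ℚ F) :
    ∃ F' : IntermediateField ℚ (AlgebraicClosure ℚ), F ≤ F' ∧ FiniteDimensional ℚ F' ∧
      F'.fixingSubgroup.Normal := by
  have := hF
  have hgal : IsGalois ℚ (AlgebraicClosure ℚ) := Levels_isGalois_Qbar inferInstance
  refine ⟨_, F.le_normalClosure, normalClosure.is_finiteDimensional _ _ _, ?_⟩
  have := IsGalois.normalClosure ℚ F (AlgebraicClosure ℚ)
  exact IsGalois.fixingSubgroup_normal_of_isGalois _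

/-- Levels have finite index. -/
theorem finiteIndex_fixingSubgroup
    (F : IntermediateField ℚ (AlgebraicClosure ℚ)) (hF : FiniteDimensional ℚ F) :
    F.fixingSubgroup.FiniteIndex := by
  have := hF
  have hgal : IsGalois ℚ (AlgebraicClosure ℚ) := Levels_isGalois_Qbar inferInstance
  constructor
  rw [← IntermediateField.finrank_eq_fixingSubgroup_index]
  exact Module.finrank_pos.ne'

/-- A finite smooth module which is unramified outside `S` is trivialised by an `S`-level. -/
theorem exists_level_of_smooth {p : ℕ} [Fact p.Prime] (S : Finset Nat.Primes)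
    (M : Rep (ZMod p) (AlgebraicClosure ℚ ≃ₐ[ℚ] AlgebraicClosure ℚ)) [FiniteDimensional (ZMod p) M]
    (hsm : ∀ m : M, ∃ F : IntermediateField ℚ (AlgebraicClosure ℚ), FiniteDimensional ℚ F ∧
      ∀ s ∈ F.fixingSubgroup, M.ρ s m = m)
    (hMur : ∀ q : Nat.Primes, q ∉ S → ∀ A : ValuationSubring (AlgebraicClosure ℚ),
      A.LiesOverPrime (q : ℕ) → ∀ g ∈ A.inertiaSubgroupIn ℚ, M.ρ g = 1) :
    ∃ F : IntermediateField ℚ (AlgebraicClosure ℚ), F.IsUnramifiedOutside S ∧
      ∀ s ∈ F.fixingSubgroup, M.ρ s = 1 := by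
  have hgal : IsGalois ℚ (AlgebraicClosure ℚ) := Levels_isGalois_Qbar inferInstance
  have hfin : Finite M := Module.finite_of_finite (ZMod p)
  choose Fm hFm1 hFm2 using hsm
  have hF1 : FiniteDimensional ℚ (⨆ m, Fm m : IntermediateField ℚ (AlgebraicClosure ℚ)) :=
    IntermediateField.finiteDimensional_iSup_of_finite
  set F1 : IntermediateField ℚ (AlgebraicClosure ℚ) := ⨆ m, Fm m with hF1def
  have hle : F1.fixingSubgroup ≤ M.ρ.ker := by
    intro s hs
    rw [MonoidHom.mem_ker]
    ext m
    exact hFm2 m s (IntermediateField.fixingSubgroup_antitone (le_iSup Fm m) hs)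
  have hopen : IsOpen (M.ρ.ker : Set (AlgebraicClosure ℚ ≃ₐ[ℚ] AlgebraicClosure ℚ)) :=
    Subgroup.isOpen_mono hle (IntermediateField.fixingSubgroup_isOpen F1)
  have hclosed : IsClosed (M.ρ.ker : Set (AlgebraicClosure ℚ ≃ₐ[ℚ] AlgebraicClosure ℚ)) :=
    Subgroup.isClosed_of_isOpen _ hopen
  have hfix : (IntermediateField.fixedField M.ρ.ker).fixingSubgroup = M.ρ.ker :=
    InfiniteGalois.fixingSubgroup_fixedField ⟨M.ρ.ker, hclosed⟩
  have hFle : IntermediateField.fixedField M.ρ.ker ≤ F1 := by
    rw [← InfiniteGalois.fixedField_fixingSubgroup F1]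
    exact IntermediateField.fixedField_antitone hle
  refine ⟨IntermediateField.fixedField M.ρ.ker, ⟨?_, fun q hq A hA g hg => ?_⟩, fun s hs => ?_⟩
  · exact FiniteDimensional.of_injective (IntermediateField.inclusion hFle).toLinearMap
      (IntermediateField.inclusion_injective hFle)
  · rw [hfix, MonoidHom.mem_ker]
    exact hMur q hq A hA g hg
  · rw [hfix, MonoidHom.mem_ker] at hs
    exact hs

/-- `Q(mu_p)` is an `S`-level when `p ∈ S`. -/
theorem exists_level_cycloChar {p : ℕ} [Fact p.Prime] (S : Finset Nat.Primes)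
    (hpS : pPrime p ∈ S) :
    ∃ F : IntermediateField ℚ (AlgebraicClosure ℚ), F.IsUnramifiedOutside S ∧
      ∀ s ∈ F.fixingSubgroup, cycloChar p s = 1 := by
  have hp : p.Prime := Fact.out
  have : NeZero p := ⟨hp.ne_zero⟩
  obtain ⟨ζ, hζ⟩ := HasEnoughRootsOfUnity.exists_primitiveRoot (AlgebraicClosure ℚ) p
  refine ⟨IntermediateField.adjoin ℚ {ζ}, ⟨?_, fun q hq A hA => ?_⟩, fun s hs => ?_⟩
  · have hgal : IsGalois ℚ (AlgebraicClosure ℚ) := Levels_isGalois_Qbar inferInstance
    exact IntermediateField.adjoin.finiteDimensional (hgal.to_normal.isIntegral ζ)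
  · rw [← IntermediateField.le_iff_le, IntermediateField.adjoin_le_iff]
    rintro x rfl
    rw [SetLike.mem_coe, IntermediateField.mem_fixedField_iff]
    intro g hg
    have hne : p ≠ (q : ℕ) := by
      intro h
      apply hq
      have : q = pPrime p := Subtype.ext h.symm
      rwa [this]
    exact Levels_inertia_fix_root A hp.ne_zero ((Nat.coprime_primes hp q.2).2 hne) hA hg
      hζ.pow_eq_one
  · rw [IntermediateField.mem_fixingSubgroup_iff] at hs
    have hsζ : s ζ = ζ := hs ζ (IntermediateField.mem_adjoin_simple_self ℚ ζ)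
    have h1 : (1 : ZMod p) = modularCyclotomicCharacter (AlgebraicClosure ℚ)
        (card_rootsOfUnity_eq_self p) (s : AlgebraicClosure ℚ ≃+* AlgebraicClosure ℚ) := by
      apply modularCyclotomicCharacter.unique
      intro t ht
      have : Fact (1 < p) := ⟨hp.one_lt⟩
      rw [ZMod.val_one, pow_one]
      have ht' : (t : AlgebraicClosure ℚ) ^ p = 1 := by
        rw [mem_rootsOfUnity] at ht
        rw [← Units.val_pow_eq_pow_val, ht, Units.val_one]
      obtain ⟨i, -, hi⟩ := hζ.eq_pow_of_pow_eq_one ht'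
      rw [← hi]
      change s (ζ ^ i) = ζ ^ i
      rw [map_pow, hsζ]
    apply Units.ext
    exact h1.symm

end Fermat.Agent.PT
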