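/-
S55 (Poitou-Tate), block F2: complements to `PT/Gal/Setup.lean` (`GQ`, `Lall`, `LS S`, `cycRep`,
`Dec`): openness criteria for the level systems, smoothness of `cycRep`, of the module `M`,
the decomposition groups `Dl ℓ` of the Prelude places.
-/
import Fermat.Agent.PT.Gal.Setup
import Fermat.Agent.PT.Coh.Coind
import Fermat.Agent.PT.Bridge.Levels

set_option autoImplicit false
open ExtCitation

namespace Fermat.Agent.PT

lemma mem_LS {S : Finset Nat.Primes} {U : Subgroup GQ} :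
    U ∈ LS S ↔ U.Normal ∧ ∃ F : IntermediateField ℚ Qbar,
      F.IsUnramifiedOutside S ∧ U = F.fixingSubgroup := Iff.rfl

lemma mem_Lall {U : Subgroup GQ} :
    U ∈ Lall ↔ U.Normal ∧ ∃ F : IntermediateField ℚ Qbar,
      FiniteDimensional ℚ F ∧ U = F.fixingSubgroup := Iff.rfl

/-- The fixing subgroup of a field unramified outside `S` is `LS S`-open. -/
lemma isOpen_LS_of_isUnramifiedOutside {S : Finset Nat.Primes}
    {F : IntermediateField ℚ Qbar} (hF : F.IsUnramifiedOutside S) :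
    (LS S).IsOpen F.fixingSubgroup := by
  obtain ⟨F', hle, hF', hn⟩ := exists_normal_level S F hF
  exact ⟨_, ⟨hn, F', hF', rfl⟩, IntermediateField.fixingSubgroup_antitone hle⟩

lemma isOpen_Lall_of_finiteDimensional
    {F : IntermediateField ℚ Qbar} (hF : FiniteDimensional ℚ F) :
    Lall.IsOpen F.fixingSubgroup := by
  obtain ⟨F', hle, hF', hn⟩ := exists_normal_level_all F hF
  exact ⟨_, ⟨hn, F', hF', rfl⟩, IntermediateField.fixingSubgroup_antitone hle⟩

/-- The decomposition group at `ℓ` (of the place `primeLocalPlace ℓ` of `Qbar`). -/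
noncomputable abbrev Dl (ℓ : Nat.Primes) : Subgroup GQ := Dec (primeLocalPlace ℓ)

/-- A level of `LS S` on which the cyclotomic character is trivial. -/
lemma exists_mem_LS_cycloChar {p : ℕ} [Fact p.Prime] {S : Finset Nat.Primes}
    (hpS : pPrime p ∈ S) : ∃ U ∈ LS S, ∀ u ∈ U, cycloChar p u = 1 := by
  obtain ⟨F, hF, h⟩ := exists_level_cycloChar S hpS
  obtain ⟨U, hU, hle⟩ := isOpen_LS_of_isUnramifiedOutside hF
  exact ⟨U, hU, fun u hu => h u (hle hu)⟩

lemma isSmoothRep_cycRep {p : ℕ} [Fact p.Prime] {S : Finset Nat.Primes} (hpS : pPrime p ∈ S) :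
    IsSmoothRep (LS S) (cycRep p) := by
  obtain ⟨U, hU, h⟩ := exists_mem_LS_cycloChar hpS
  intro a
  exact ⟨U, hU, fun u hu => by simp [cycRep_apply, h u hu]⟩

lemma isOpen_LS_G1 {p : ℕ} [Fact p.Prime] {S : Finset Nat.Primes} (hpS : pPrime p ∈ S) :
    (LS S).IsOpen (G1 p) := by
  obtain ⟨U, hU, h⟩ := exists_mem_LS_cycloChar hpS
  exact ⟨U, hU, fun u hu => h u hu⟩

/-- A level of `LS S` acting trivially on the module `M` of S55. -/
lemma exists_mem_LS_of_smooth {p : ℕ} [Fact p.Prime] (S : Finset Nat.Primes)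
    (M : Rep (ZMod p) GQ) [FiniteDimensional (ZMod p) M]
    (hsm : ∀ m : M, ∃ F : IntermediateField ℚ (AlgebraicClosure ℚ), FiniteDimensional ℚ F ∧
      ∀ s ∈ F.fixingSubgroup, M.ρ s m = m)
    (hMur : ∀ q : Nat.Primes, q ∉ S → ∀ A : ValuationSubring (AlgebraicClosure ℚ),
      A.LiesOverPrime (q : ℕ) → ∀ g ∈ A.inertiaSubgroupIn ℚ, M.ρ g = 1) :
    ∃ U ∈ LS S, ∀ u ∈ U, M.ρ u = 1 := by
  obtain ⟨F, hF, h⟩ := exists_level_of_smooth S M hsm hMur
  obtain ⟨U, hU, hle⟩ := isOpen_LS_of_isUnramifiedOutside hF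
  exact ⟨U, hU, fun u hu => h u (hle hu)⟩

end Fermat.Agent.PT
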