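import Fermat.Prelude.Def_GroupCohomology_ContinuousUnramified

/-!
# S55 / block F2 / task B2: the archimedean place contributes nothing for odd `p`
-/

set_option autoImplicit false
open CategoryTheory Module groupCohomology ExtCitation

namespace Fermat.Agent.PT

section abstract

variable {k G : Type} [CommRing k] [Group G] (A : Rep k G)

/-- A group of order at most two, `2` invertible: `1`-cocycles are coboundaries. -/
theorem Arch_mem_coboundaries₁ (c : G) (hc : c * c = 1) (hall : ∀ g : G, g = 1 ∨ g = c)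
    (u : k) (hu : 2 * u = 1) (f : G → A) (hf : f ∈ cocycles₁ A) : f ∈ coboundaries₁ A := by
  rw [mem_cocycles₁_iff] at hf
  refine ⟨-(u • (f 1 + f c)), ?_⟩
  funext g
  rw [d₀₁_hom_apply]
  have h1 := hf g 1
  have h2 := hf g c
  have hsum : f (g * 1) + f (g * c) = f 1 + f c := by
    rcases hall g with rfl | rfl
    · simp
    · rw [hc, mul_one, add_comm]
  have key : f 1 + f c = A.ρ g (f 1 + f c) + (f g + f g) := by
    calc f 1 + f c = f (g * 1) + f (g * c) := hsum.symm
      _ = (A.ρ g (f 1) + f g) + (A.ρ g (f c) + f g) := by rw [h1, h2]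
      _ = _ := by rw [map_add]; abel
  have hfg : u • (f g + f g) = f g := by
    rw [← two_smul k (f g), smul_smul, mul_comm, hu, one_smul]
  generalize f 1 + f c = T at key ⊢
  have key2 : u • T = A.ρ g (u • T) + f g := by
    conv_lhs => rw [key]
    rw [smul_add, hfg, map_smul]
  rw [map_neg, neg_sub_neg]
  exact sub_eq_of_eq_add' key2

/-- A group of order at most two, `2` invertible: `2`-cocycles are coboundaries. -/
theorem Arch_exists_d₁₂ (c : G) (hc : c * c = 1) (hall : ∀ g : G, g = 1 ∨ g = c)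
    (u : k) (hu : 2 * u = 1) (f : G × G → A) (hf : f ∈ cocycles₂ A) :
    ∃ x : G → A, (d₁₂ A).hom x = f := by
  rw [mem_cocycles₂_iff] at hf
  refine ⟨fun g => u • (f (g, 1) + f (g, c)), ?_⟩
  funext ⟨g, h⟩
  rw [d₁₂_hom_apply]
  show A.ρ g (u • (f (h, 1) + f (h, c))) - u • (f (g * h, 1) + f (g * h, c))
    + u • (f (g, 1) + f (g, c)) = f (g, h)
  have h1 := hf g h 1
  have h2 := hf g h c
  have hsum : f (g, h * 1) + f (g, h * c) = f (g, 1) + f (g, c) := by
    rcases hall h with rfl | rfl
    · simp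
    · rw [hc, mul_one, add_comm]
  have key : (f (g * h, 1) + f (g * h, c)) + (f (g, h) + f (g, h))
      = A.ρ g (f (h, 1) + f (h, c)) + (f (g, 1) + f (g, c)) := by
    calc f (g * h, 1) + f (g * h, c) + (f (g, h) + f (g, h))
        = (f (g * h, 1) + f (g, h)) + (f (g * h, c) + f (g, h)) := by abel
      _ = (A.ρ g (f (h, 1)) + f (g, h * 1)) + (A.ρ g (f (h, c)) + f (g, h * c)) := by rw [h1, h2]
      _ = A.ρ g (f (h, 1) + f (h, c)) + (f (g, h * 1) + f (g, h * c)) := by rw [map_add]; abel
      _ = _ := by rw [hsum]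
  have hfg : u • (f (g, h) + f (g, h)) = f (g, h) := by
    rw [← two_smul k (f (g, h)), smul_smul, mul_comm, hu, one_smul]
  generalize f (g * h, 1) + f (g * h, c) = S1 at key ⊢
  generalize f (h, 1) + f (h, c) = S2 at key ⊢
  generalize f (g, 1) + f (g, c) = S3 at key ⊢
  have key2 : u • S1 + f (g, h) = A.ρ g (u • S2) + u • S3 := by
    rw [← hfg, ← smul_add, key, smul_add, map_smul]
  rw [sub_add_eq_add_sub, sub_eq_iff_eq_add, add_comm (f (g, h))]
  exact key2.symm

end abstract

theorem Arch_gen_mul_self : archimedeanGen * archimedeanGen = 1 :=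
  Subtype.ext complexConjugation_mul_self

theorem Arch_eq_one_or (g : archimedeanDecomposition) : g = 1 ∨ g = archimedeanGen := by
  obtain ⟨g, hg⟩ := g
  obtain ⟨n, rfl⟩ := Subgroup.mem_zpowers_iff.1 hg
  rcases Int.even_or_odd' n with ⟨m, rfl | rfl⟩
  · left
    apply Subtype.ext
    change complexConjugation ^ (2 * m) = 1
    rw [zpow_mul, zpow_ofNat, complexConjugation_sq, one_zpow]
  · right
    apply Subtype.ext
    change complexConjugation ^ (2 * m + 1) = complexConjugation
    rw [zpow_add, zpow_mul, zpow_ofNat, complexConjugation_sq, one_zpow, one_mul, zpow_one]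

/-- A finite level which detects complex conjugation. -/
theorem Arch_exists_level : ∃ F : IntermediateField ℚ (AlgebraicClosure ℚ), FiniteDimensional ℚ F ∧
    ∀ s : archimedeanDecomposition, archimedeanLoc s ∈ F.fixingSubgroup → s = 1 := by
  by_cases h : complexConjugation = 1
  · refine ⟨⊥, inferInstance, fun s _ => ?_⟩
    rcases Arch_eq_one_or s with hs | hs
    · exact hs
    · rw [hs]
      exact Subtype.ext h
  · obtain ⟨y, hy⟩ : ∃ y, complexConjugation y ≠ y := by
      by_contra hcon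
      push Not at hcon
      exact h (AlgEquiv.ext hcon)
    refine ⟨IntermediateField.adjoin ℚ {y},
      IntermediateField.adjoin.finiteDimensional
        ((AlgebraicClosure.isAlgebraic ℚ).isAlgebraic y).isIntegral, fun s hs => ?_⟩
    rcases Arch_eq_one_or s with hs' | hs'
    · exact hs'
    · exfalso
      rw [hs', archimedeanLoc_archimedeanGen, IntermediateField.mem_fixingSubgroup_iff] at hs
      exact hy (hs y (IntermediateField.mem_adjoin_simple_self ℚ y))

theorem Arch_exists_half {p : ℕ} [Fact p.Prime] (hp2 : p ≠ 2) : ∃ u : ZMod p, 2 * u = 1 := by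
  have h2 : (2 : ZMod p) ≠ 0 := by
    intro h
    have h' : ((2 : ℕ) : ZMod p) = 0 := by exact_mod_cast h
    rw [ZMod.natCast_eq_zero_iff] at h'
    exact hp2 ((Nat.prime_dvd_prime_iff_eq Fact.out Nat.prime_two).1 h')
  exact ⟨2⁻¹, mul_inv_cancel₀ h2⟩

theorem subsingleton_continuousH2_arch {p : ℕ} [Fact p.Prime] (hp2 : p ≠ 2)
    (M : Rep (ZMod p) (AlgebraicClosure ℚ ≃ₐ[ℚ] AlgebraicClosure ℚ)) :
    Subsingleton (continuousH2 archimedeanLoc (Rep.res archimedeanLoc M)) := by
  obtain ⟨u, hu⟩ := Arch_exists_half hp2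
  rw [Submodule.Quotient.subsingleton_iff, eq_top_iff]
  rintro ⟨f, hf⟩ -
  rw [Submodule.mem_comap, Submodule.subtype_apply, mem_levelCoboundaries₂_iff]
  obtain ⟨x, hx⟩ := Arch_exists_d₁₂ (Rep.res archimedeanLoc M) archimedeanGen Arch_gen_mul_self
    Arch_eq_one_or u hu f hf.1
  refine ⟨x, ?_, hx⟩
  obtain ⟨F, hF, hs⟩ := Arch_exists_level
  exact ⟨F, hF, fun g s h => by rw [hs s h, mul_one]⟩

theorem subsingleton_H1_arch {p : ℕ} [Fact p.Prime] (hp2 : p ≠ 2)
    (M : Rep (ZMod p) (AlgebraicClosure ℚ ≃ₐ[ℚ] AlgebraicClosure ℚ)) :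
    Subsingleton (H1 (Rep.res archimedeanLoc M)) := by
  obtain ⟨u, hu⟩ := Arch_exists_half hp2
  have h0 : ∀ x : H1 (Rep.res archimedeanLoc M), x = 0 := by
    intro x
    induction x using H1_induction_on with
    | h f =>
      rw [H1π_eq_zero_iff]
      exact Arch_mem_coboundaries₁ (Rep.res archimedeanLoc M) archimedeanGen Arch_gen_mul_self
        Arch_eq_one_or u hu f f.2
  exact ⟨fun x y => by rw [h0 x, h0 y]⟩

end Fermat.Agent.PT
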