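/-
S55 (Poitou-Tate), block F2: bridge between the Prelude's `continuousH2S S M`, `sha₂ S M` and the
framework `H2 (LS S) ⊤ M.ρ`, `loc2`.
-/
import Fermat.Agent.PT.Bridge.GalLevels
import Fermat.Agent.PT.Global.Interface
import Fermat.Agent.PT.Coh.DictV

set_option autoImplicit false
set_option maxHeartbeats 400000

open CategoryTheory groupCohomology ExtCitation

noncomputable section

namespace Fermat.Agent.PT

variable {k : Type} [CommRing k] (S : Finset Nat.Primes) (M : Rep k GQ)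

/-- Prelude level-constancy = framework level-constancy (`isOpen_LS_of_isUnramifiedOutside`). -/
theorem isLevelConstantS₁_iff {X : Type*} (f : GQ → X) :
    IsLevelConstantS₁ S f ↔ Inh.LC1 (LS S) f := by
  constructor
  · rintro ⟨F, hF, h⟩
    obtain ⟨U, hU, hle⟩ := isOpen_LS_of_isUnramifiedOutside hF
    exact ⟨U, hU, fun g s hs => h g s (hle hs)⟩
  · rintro ⟨U, hU, h⟩
    obtain ⟨-, F, hF, rfl⟩ := mem_LS.mp hU
    exact ⟨F, hF, fun g s hs => h g s hs⟩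

theorem isLevelConstantS₂_iff {X : Type*} (f : GQ × GQ → X) :
    IsLevelConstantS₂ S f ↔ Inh.LC2 (LS S) f := by
  constructor
  · rintro ⟨F, hF, h⟩
    obtain ⟨U, hU, hle⟩ := isOpen_LS_of_isUnramifiedOutside hF
    exact ⟨U, hU, fun g g' s s' hs hs' => h g g' s s' (hle hs) (hle hs')⟩
  · rintro ⟨U, hU, h⟩
    obtain ⟨-, F, hF, rfl⟩ := mem_LS.mp hU
    exact ⟨F, hF, fun g g' s s' hs hs' => h g g' s s' hs hs'⟩

theorem levelCocyclesS₂_eq : levelCocyclesS₂ S M = Inh.Z2 (LS S) M.ρ := by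
  ext f
  rw [mem_levelCocyclesS₂_iff, groupCohomology.mem_cocycles₂_iff, Inh.mem_Z2,
    isLevelConstantS₂_iff, and_comm]

theorem levelCoboundariesS₂_eq : levelCoboundariesS₂ S M = Inh.B2 (LS S) M.ρ := by
  ext f
  rw [mem_levelCoboundariesS₂_iff, Inh.mem_B2]
  have key : ∀ x : GQ → M, (d₁₂ M).hom x = Inh.d12 M.ρ x := by
    intro x
    funext ⟨g, h⟩
    rw [d₁₂_hom_apply, Inh.d12_apply]
  constructor
  · rintro ⟨x, hx, rfl⟩
    exact ⟨x, (isLevelConstantS₁_iff S x).mp hx, (key x).symm⟩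
  · rintro ⟨x, hx, rfl⟩
    exact ⟨x, (isLevelConstantS₁_iff S x).mpr hx, key x⟩

variable {M}

/-- The comparison map `[c] ↦ [(g₀,g₁,g₂) ↦ g₀ c(g₀⁻¹g₁, g₁⁻¹g₂)]`. -/
def h2sMap (hM : IsSmoothRep (LS S) M.ρ) : continuousH2S S M →ₗ[k] H2 (LS S) ⊤ M.ρ :=
  Submodule.mapQ _ _
    ((ofInh2 M.ρ).restrict (p := levelCocyclesS₂ S M) (q := Z2 (LS S) ⊤ M.ρ) fun c hc =>
      ofInh2_mem_Z2 hM (by rwa [← levelCocyclesS₂_eq]))
    (fun c hc => by
      have h : (c : GQ × GQ → M) ∈ levelCoboundariesS₂ S M := hc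
      rw [levelCoboundariesS₂_eq] at h
      exact ofInh2_mem_B2 hM h)

theorem h2sMap_mk (hM : IsSmoothRep (LS S) M.ρ) (c : levelCocyclesS₂ S M) :
    h2sMap S hM (continuousH2Sπ S M c) =
      H2.mk (LS S) ⊤ M.ρ ⟨ofInh2 M.ρ c, ofInh2_mem_Z2 hM (by
        rw [← levelCocyclesS₂_eq]; exact c.2)⟩ := rfl

/-- (`toInh2_mem_Z2`, `toInh2_mem_B2`, `ofInh2_toInh2`, `toInh2_ofInh2` of `Coh/Dict.lean`.) -/
theorem h2sMap_bijective (hM : IsSmoothRep (LS S) M.ρ) : Function.Bijective (h2sMap S hM) := by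
  constructor
  · rw [injective_iff_map_eq_zero]
    intro x hx
    obtain ⟨c, rfl⟩ := Submodule.mkQ_surjective _ x
    change h2sMap S hM (continuousH2Sπ S M c) = 0 at hx
    change continuousH2Sπ S M c = 0
    rw [h2sMap_mk, H2.mk_eq_zero_iff] at hx
    rw [continuousH2Sπ_eq_zero_iff, levelCoboundariesS₂_eq]
    have := toInh2_mem_B2 hx
    rwa [toInh2_ofInh2] at this
  · intro y
    obtain ⟨z, rfl⟩ := H2.mk_surjective (LS S) ⊤ M.ρ y
    have hc : toInh2 (k := k) (z : GQ → GQ → GQ → M) ∈ levelCocyclesS₂ S M := by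
      rw [levelCocyclesS₂_eq]
      exact toInh2_mem_Z2 z.2
    refine ⟨continuousH2Sπ S M ⟨_, hc⟩, ?_⟩
    rw [h2sMap_mk]
    congr 1
    exact Subtype.ext (ofInh2_toInh2 (mem_Z2.1 z.2).1)

end Fermat.Agent.PT

end
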