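import Fermat.Prelude.Def_GroupCohomology_ContinuousUnramified

/-!
# S55 / block F2 / task B1: the image of the local Galois group is the decomposition group

`localGaloisToGlobal q : Gal(PadicAlgCl q / ℚ_[q]) →* Gal(Qbar/ℚ)` has range exactly the
decomposition subgroup of `padicPlace q`.
-/

set_option autoImplicit false

namespace Fermat.Agent.PT

open scoped NNReal Pointwise Topology

theorem LocalRange.isGalois_Qbar (inst : Algebra ℚ (AlgebraicClosure ℚ)) :
    @IsGalois ℚ _ (AlgebraicClosure ℚ) _ inst := by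
  have h : inst = AlgebraicClosure.instAlgebra ℚ := Subsingleton.elim _ _
  rw [h]
  infer_instance

variable (q : ℕ) [Fact q.Prime]

theorem LocalRange.norm_q_pow_pos (m : ℕ) : 0 < ‖(q : PadicAlgCl q) ^ m‖ := by
  have hq : (q : PadicAlgCl q) ≠ 0 := Nat.cast_ne_zero.mpr (Fact.out : q.Prime).ne_zero
  exact norm_pos_iff.mpr (pow_ne_zero _ hq)

theorem LocalRange.norm_q : ‖(q : PadicAlgCl q)‖ = (q : ℝ)⁻¹ := by
  have h : (q : PadicAlgCl q) = algebraMap ℚ_[q] (PadicAlgCl q) (q : ℚ_[q]) := (map_natCast _ q).symm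
  rw [h, PadicAlgCl.norm_extends, Padic.norm_p]

theorem LocalRange.mem_place_iff (z : AlgebraicClosure ℚ) (m : ℕ) :
    z / (q : AlgebraicClosure ℚ) ^ m ∈ padicPlace q ↔
      ‖padicEmbedding q z‖ ≤ ‖(q : PadicAlgCl q) ^ m‖ := by
  rw [mem_padicPlace_iff, map_div₀, map_pow, map_natCast, ← NNReal.coe_le_coe, coe_nnnorm,
    norm_div, NNReal.coe_one, div_le_one (LocalRange.norm_q_pow_pos q m)]

theorem LocalRange.map_mem {σ : AlgebraicClosure ℚ ≃ₐ[ℚ] AlgebraicClosure ℚ}
    (hσ : σ ∈ (padicPlace q).decompositionSubgroup ℚ) {x : AlgebraicClosure ℚ}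
    (hx : x ∈ padicPlace q) : σ x ∈ padicPlace q := by
  have h := ValuationSubring.smul_mem_pointwise_smul σ x (padicPlace q) hx
  rw [MulAction.mem_stabilizer_iff.mp hσ] at h
  exact h

theorem LocalRange.norm_le {σ : AlgebraicClosure ℚ ≃ₐ[ℚ] AlgebraicClosure ℚ}
    (hσ : σ ∈ (padicPlace q).decompositionSubgroup ℚ) (z : AlgebraicClosure ℚ) (m : ℕ)
    (hz : ‖padicEmbedding q z‖ ≤ ‖(q : PadicAlgCl q) ^ m‖) :
    ‖padicEmbedding q (σ z)‖ ≤ ‖(q : PadicAlgCl q) ^ m‖ := by
  have h := LocalRange.map_mem q hσ ((LocalRange.mem_place_iff q z m).mpr hz)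
  rw [map_div₀, map_pow, map_natCast] at h
  exact (LocalRange.mem_place_iff q (σ z) m).mp h

/-- An element of the decomposition group fixes every element of `Qbar` which lies in `ℚ_q`. -/
theorem LocalRange.fix_of_mem_range {σ : AlgebraicClosure ℚ ≃ₐ[ℚ] AlgebraicClosure ℚ}
    (hσ : σ ∈ (padicPlace q).decompositionSubgroup ℚ) (x : AlgebraicClosure ℚ) (c : ℚ_[q])
    (hx : algebraMap ℚ_[q] (PadicAlgCl q) c = padicEmbedding q x) : σ x = x := by
  apply (padicEmbedding q).toRingHom.injective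
  change padicEmbedding q (σ x) = padicEmbedding q x
  rw [← sub_eq_zero, ← norm_le_zero_iff]
  have hbound : ∀ m : ℕ, ‖padicEmbedding q (σ x) - padicEmbedding q x‖ ≤
      2 * ((q : ℝ)⁻¹) ^ m := by
    intro m
    have hpos := LocalRange.norm_q_pow_pos q m
    obtain ⟨r, hr⟩ := Padic.rat_dense q c hpos
    have hz : padicEmbedding q (x - (r : AlgebraicClosure ℚ)) =
        algebraMap ℚ_[q] (PadicAlgCl q) (c - r) := by
      rw [map_sub, map_sub, map_ratCast, map_ratCast, hx]
    have h1 : ‖padicEmbedding q (x - (r : AlgebraicClosure ℚ))‖ ≤ ‖(q : PadicAlgCl q) ^ m‖ := by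
      rw [hz, PadicAlgCl.norm_extends]
      exact hr.le
    have h2 := LocalRange.norm_le q hσ _ m h1
    rw [map_sub, map_ratCast, map_sub, map_ratCast] at h2
    rw [map_sub, map_ratCast] at h1
    have h3 : padicEmbedding q (σ x) - padicEmbedding q x =
        (padicEmbedding q (σ x) - (r : PadicAlgCl q)) - (padicEmbedding q x - (r : PadicAlgCl q)) := by
      ring
    have hn : ‖(q : PadicAlgCl q) ^ m‖ = ((q : ℝ)⁻¹) ^ m := by
      rw [norm_pow, LocalRange.norm_q]
    rw [h3]
    calc _ ≤ ‖padicEmbedding q (σ x) - (r : PadicAlgCl q)‖ +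
          ‖padicEmbedding q x - (r : PadicAlgCl q)‖ := norm_sub_le _ _
      _ ≤ ‖(q : PadicAlgCl q) ^ m‖ + ‖(q : PadicAlgCl q) ^ m‖ := add_le_add h2 h1
      _ = 2 * ((q : ℝ)⁻¹) ^ m := by rw [hn]; ring
  have hq1 : ((q : ℝ)⁻¹) < 1 := by
    have : (1 : ℝ) < q := by exact_mod_cast (Fact.out : q.Prime).one_lt
    exact inv_lt_one_of_one_lt₀ this
  have hq0 : (0 : ℝ) ≤ (q : ℝ)⁻¹ := by positivity
  have hlim : Filter.Tendsto (fun m : ℕ => 2 * ((q : ℝ)⁻¹) ^ m) Filter.atTop (𝓝 (2 * 0)) :=
    (tendsto_pow_atTop_nhds_zero_of_lt_one hq0 hq1).const_mul 2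
  rw [mul_zero] at hlim
  exact ge_of_tendsto' hlim hbound

theorem LocalRange.continuous_localGaloisToGlobal : Continuous (localGaloisToGlobal q) := by
  apply continuous_of_continuousAt_one
  rw [ContinuousAt, map_one]
  intro U hU
  rw [krullTopology_mem_nhds_one_iff] at hU
  obtain ⟨E, hE, hEU⟩ := hU
  rw [Filter.mem_map, krullTopology_mem_nhds_one_iff]
  let b := Module.finBasis ℚ E
  refine ⟨IntermediateField.adjoin ℚ_[q]
    (Set.range fun k => padicEmbedding q ((b k : E) : AlgebraicClosure ℚ)), ?_, ?_⟩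
  · apply IntermediateField.finiteDimensional_adjoin
    intro x _
    exact Algebra.IsIntegral.isIntegral x
  · intro τ hτ
    apply hEU
    rw [SetLike.mem_coe, IntermediateField.mem_fixingSubgroup_iff] at hτ ⊢
    have hb : ∀ k, localGaloisToGlobal q τ ((b k : E) : AlgebraicClosure ℚ) = (b k : E) := by
      intro k
      apply (padicEmbedding q).toRingHom.injective
      change padicEmbedding q _ = padicEmbedding q _
      rw [padicEmbedding_localGaloisToGlobal]
      exact hτ _ (IntermediateField.subset_adjoin _ _ ⟨k, rfl⟩)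
    intro x hx
    have hlin : (localGaloisToGlobal q τ).toLinearMap ∘ₗ E.val.toLinearMap = E.val.toLinearMap :=
      b.ext fun k => hb k
    exact LinearMap.congr_fun hlin ⟨x, hx⟩

theorem LocalRange.isClosed_range :
    IsClosed ((localGaloisToGlobal q).range : Set (AlgebraicClosure ℚ ≃ₐ[ℚ] AlgebraicClosure ℚ)) := by
  have := LocalRange.isGalois_Qbar inferInstance
  have : T2Space (AlgebraicClosure ℚ ≃ₐ[ℚ] AlgebraicClosure ℚ) := krullTopology_t2
  rw [MonoidHom.coe_range]
  exact (isCompact_range (LocalRange.continuous_localGaloisToGlobal q)).isClosed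

/-- The image of `Gal(Q_q-bar/Q_q)` in `Gal(Qbar/Q)` is the full decomposition group of the
place `padicPlace q`. (`≤` is the Prelude lemma `localGaloisToGlobal_mem_decompositionSubgroup`.) -/
theorem range_localGaloisToGlobal (q : ℕ) [Fact q.Prime] :
    (localGaloisToGlobal q).range = (padicPlace q).decompositionSubgroup ℚ := by
  apply le_antisymm
  · rintro _ ⟨τ, rfl⟩
    exact localGaloisToGlobal_mem_decompositionSubgroup q τ
  · intro σ hσ
    have := LocalRange.isGalois_Qbar inferInstance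
    have hfix := InfiniteGalois.fixingSubgroup_fixedField
      (⟨(localGaloisToGlobal q).range, LocalRange.isClosed_range q⟩ :
        ClosedSubgroup (AlgebraicClosure ℚ ≃ₐ[ℚ] AlgebraicClosure ℚ))
    change _ = (localGaloisToGlobal q).range at hfix
    rw [← hfix, IntermediateField.mem_fixingSubgroup_iff]
    intro x hx
    have hx' : ∀ f ∈ (localGaloisToGlobal q).range, f x = x :=
      (IntermediateField.mem_fixedField_iff _ x).mp hx
    have hfixed : ∀ τ : PadicAlgCl q ≃ₐ[ℚ_[q]] PadicAlgCl q,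
        τ (padicEmbedding q x) = padicEmbedding q x := by
      intro τ
      rw [← padicEmbedding_localGaloisToGlobal, hx' _ ⟨τ, rfl⟩]
    obtain ⟨c, hc⟩ := (InfiniteGalois.mem_range_algebraMap_iff_fixed _).mpr hfixed
    exact LocalRange.fix_of_mem_range q hσ x c hc

end Fermat.Agent.PT
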