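/-
S55 (Poitou-Tate), block F2: bridge between the Prelude's local conditions (`locRes₂S`, `sha₂ S M`) and
the framework (`loc2`, relative model).
-/
import Fermat.Agent.PT.Bridge.H2S
import Fermat.Agent.PT.Bridge.Arch
import Fermat.Agent.PT.Bridge.LocalRange

set_option autoImplicit false
set_option maxHeartbeats 400000

open CategoryTheory groupCohomology ExtCitation

noncomputable section

namespace Fermat.Agent.PT

variable {k : Type} [CommRing k] (S : Finset Nat.Primes) {M : Rep k GQ}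

/-- The abstract comparison: level-constant primitives on `H` (through `r : H →* GQ`) versus smooth
primitives on the subgroup `D = range r`. -/
theorem H2Loc_primitive_iff {H : Type} [Group H] (r : H →* GQ) (D : Subgroup GQ)
    (hr : r.range = D) (c : GQ × GQ → M) :
    (∃ b : H → (Rep.res r M), IsLevelConstant₁ r b ∧
      (d₁₂ (Rep.res r M)).hom b = fun q : H × H => (c (r q.1, r q.2) : M)) ↔
    ∃ c' : GQ → M, SmoothOn1 Lall (⊤ ⊓ D) c' ∧
      ∀ v ∈ (⊤ ⊓ D : Subgroup GQ), ∀ w ∈ (⊤ ⊓ D : Subgroup GQ),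
        c (v, w) = M.ρ v (c' w) - c' (v * w) + c' v := by
  classical
  constructor
  · rintro ⟨b, ⟨F, hF, hb⟩, hd⟩
    -- `b` factors through `r`
    have hfac : ∀ τ τ' : H, r τ = r τ' → b τ = b τ' := by
      intro τ τ' h
      have h1 : r (τ'⁻¹ * τ) ∈ F.fixingSubgroup := by
        rw [map_mul, map_inv, h, inv_mul_cancel]
        exact Subgroup.one_mem _
      have h2 := hb τ' (τ'⁻¹ * τ) h1
      rw [mul_inv_cancel_left] at h2
      exact h2
    have hex : ∀ v : GQ, v ∈ D → ∃ τ : H, r τ = v := by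
      intro v hv
      rw [← hr] at hv
      exact hv
    let c' : GQ → M := fun v => if hv : v ∈ D then b (hex v hv).choose else 0
    have hc' : ∀ τ : H, c' (r τ) = b τ := by
      intro τ
      have hv : r τ ∈ D := by rw [← hr]; exact ⟨τ, rfl⟩
      show (if hv : r τ ∈ D then b (hex (r τ) hv).choose else 0) = b τ
      rw [dif_pos hv]
      exact hfac _ _ (hex (r τ) hv).choose_spec
    obtain ⟨U, hU, hle⟩ := isOpen_Lall_of_finiteDimensional hF
    refine ⟨c', ⟨U, hU, ?_⟩, ?_⟩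
    · rintro v ⟨-, hv⟩ u ⟨-, hu⟩ huU
      obtain ⟨τ, rfl⟩ := hex v hv
      obtain ⟨s, rfl⟩ := hex u hu
      rw [← map_mul, hc', hc']
      exact hb τ s (hle huU)
    · rintro v ⟨-, hv⟩ w ⟨-, hw⟩
      obtain ⟨τ, rfl⟩ := hex v hv
      obtain ⟨τ', rfl⟩ := hex w hw
      have h1 := congrFun hd (τ, τ')
      rw [d₁₂_hom_apply] at h1
      rw [← map_mul, hc', hc', hc']
      exact h1.symm
  · rintro ⟨c', ⟨U, hU, hs⟩, hc⟩
    have hmem : ∀ τ : H, r τ ∈ (⊤ ⊓ D : Subgroup GQ) := by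
      intro τ
      refine ⟨Subgroup.mem_top _, ?_⟩
      rw [← hr]
      exact ⟨τ, rfl⟩
    obtain ⟨-, F, hF, rfl⟩ := mem_Lall.1 hU
    refine ⟨fun τ => c' (r τ), ⟨F, hF, fun g s hs' => ?_⟩, ?_⟩
    · show c' (r (g * s)) = c' (r g)
      rw [map_mul]
      exact hs _ (hmem g) _ (hmem s) hs'
    · funext ⟨τ, τ'⟩
      rw [d₁₂_hom_apply]
      have h1 := hc _ (hmem τ) _ (hmem τ')
      rw [← map_mul] at h1
      exact h1.symm

theorem H2Loc_range (ℓ : Nat.Primes) : (primeLocalToGlobal ℓ).range = Dec (primeLocalPlace ℓ) := by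
  letI : Fact (ℓ : ℕ).Prime := ⟨ℓ.2⟩
  exact range_localGaloisToGlobal (ℓ : ℕ)

/-- Local triviality at `ℓ`: Prelude (`continuousH2` of `Gal(Q_ℓ-bar/Q_ℓ)` via
`primeLocalToGlobal ℓ`) versus framework (relative model for `⊤ ⊓ Dec (primeLocalPlace ℓ)`).

For `x = [c]`, `z = ofInh2 M.ρ c`: LHS `⇔ ∃ b : G_ℓ → M` level-constant with
`d₁₂ b = c ∘ (r × r)` (`continuousH2π_eq_zero_iff`, `mem_levelCoboundaries₂_iff`);
RHS `⇔ z ∈ B2 Lall (⊤ ⊓ Dl ℓ) M.ρ ⇔ ∃ c' : GQ → M, SmoothOn1 .. c' ∧ ∀ v w ∈ D, c (v, w) = ..`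
(`mem_B2_iff` of `Coh/DictV.lean`, `toInh2_ofInh2`).  `⇐`: `b = c' ∘ r`.  `⇒`: `b` factors through `r`
(`r τ = r τ' ⇒ b τ = b τ'` by level-constancy), and `range r = Dl ℓ`
(`range_localGaloisToGlobal`); put `c' (r τ) = b τ`, `c' = 0` outside `Dl ℓ`. -/
theorem locRes₂S_eq_zero_iff (hM : IsSmoothRep (LS S) M.ρ) (ℓ : Nat.Primes)
    (x : continuousH2S S M) :
    locRes₂S S M (primeLocalToGlobal ℓ) x = 0 ↔
      loc2 S ⊤ M.ρ (primeLocalPlace ℓ) (h2sMap S hM x) = 0 := by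
  obtain ⟨c, rfl⟩ := Submodule.mkQ_surjective _ x
  have hM' : IsSmoothRep Lall M.ρ := by
    intro a
    obtain ⟨U, hU, h⟩ := hM a
    exact ⟨U, LS_le_Lall S hU, h⟩
  have hz : ofInh2 M.ρ (c : GQ × GQ → M) ∈ Z2 (LS S) ⊤ M.ρ :=
    ofInh2_mem_Z2 hM (by rw [← levelCocyclesS₂_eq]; exact c.2)
  have hz' : ofInh2 M.ρ (c : GQ × GQ → M) ∈ Z2 Lall (⊤ ⊓ Dec (primeLocalPlace ℓ)) M.ρ :=
    ((inclC M.ρ (LS_le_Lall S) (inf_le_left : ⊤ ⊓ Dec (primeLocalPlace ℓ) ≤ ⊤)).Z2 ⟨_, hz⟩).2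
  have hR : loc2 S ⊤ M.ρ (primeLocalPlace ℓ) (h2sMap S hM (continuousH2Sπ S M c)) =
      H2.mk Lall (⊤ ⊓ Dec (primeLocalPlace ℓ)) M.ρ ⟨ofInh2 M.ρ (c : GQ × GQ → M), hz'⟩ := rfl
  have hL : locRes₂S S M (primeLocalToGlobal ℓ) (continuousH2Sπ S M c) =
      continuousH2π (primeLocalToGlobal ℓ) (Rep.res (primeLocalToGlobal ℓ) M)
        (levelCocycles₂Map (rH := MonoidHom.id _) (rG := primeLocalToGlobal ℓ)
          (primeLocalToGlobal ℓ) (fun _ => rfl)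
          (LinearMap.id : M →ₗ[k] Rep.res (primeLocalToGlobal ℓ) M) (fun _ _ => rfl)
          (levelCocyclesS₂ToLevelCocycles₂ S M c)) := rfl
  show locRes₂S S M (primeLocalToGlobal ℓ) (continuousH2Sπ S M c) = 0 ↔
    loc2 S ⊤ M.ρ (primeLocalPlace ℓ) (h2sMap S hM (continuousH2Sπ S M c)) = 0
  rw [hR, hL, H2.mk_eq_zero_iff, continuousH2π_eq_zero_iff, mem_levelCoboundaries₂_iff,
    mem_B2_iff hM' hz']
  have key := H2Loc_primitive_iff (M := M) (primeLocalToGlobal ℓ) (Dec (primeLocalPlace ℓ))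
    (H2Loc_range ℓ) (c : GQ × GQ → M)
  have e : ∀ v w : GQ, ofInh2 M.ρ (c : GQ × GQ → M) 1 v (v * w) = (c : GQ × GQ → M) (v, w) := by
    intro v w
    simp [ofInh2_apply]
  simp only [e]
  exact key

/-- `Ш²` in the framework. -/
theorem mem_sha₂_iff {p : ℕ} [Fact p.Prime] (hp2 : p ≠ 2) {M : Rep (ZMod p) GQ}
    (hM : IsSmoothRep (LS S) M.ρ) (x : continuousH2S S M) :
    x ∈ sha₂ S M ↔ ∀ ℓ : ↥S, loc2 S ⊤ M.ρ (primeLocalPlace ℓ.1) (h2sMap S hM x) = 0 := by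
  have harch := subsingleton_continuousH2_arch hp2 M
  simp only [sha₂, LinearMap.mem_ker]
  constructor
  · intro h ℓ
    rw [← locRes₂S_eq_zero_iff]
    exact congrFun h (Sum.inr ℓ)
  · intro h
    funext v
    rcases v with v | ℓ
    · exact Subsingleton.elim (h := harch) _ _
    · exact (locRes₂S_eq_zero_iff S hM ℓ.1 x).mpr (h ℓ)

end Fermat.Agent.PT

end
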