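/-
S55 (Poitou-Tate), block F2-5 (H¹ side): the Prelude's `sha₁ S N` in terms of explicit cocycles.
-/
import Fermat.Agent.PT.Bridge.GalLevels
import Fermat.Agent.PT.Bridge.Arch
import Fermat.Agent.PT.Bridge.LocalRange

set_option autoImplicit false
set_option maxHeartbeats 400000

open CategoryTheory groupCohomology ExtCitation

namespace Fermat.Agent.PT

theorem range_primeLocalToGlobal (ℓ : Nat.Primes) :
    (primeLocalToGlobal ℓ).range = Dl ℓ := by
  have : Fact (ℓ : ℕ).Prime := ⟨ℓ.2⟩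
  exact range_localGaloisToGlobal (ℓ : ℕ)

theorem locRes_H1π_eq_zero_iff {k : Type} [Field k] {G H : Type} [Group G] [Group H] (f : H →* G)
    (N : Rep k G) (a : cocycles₁ N) :
    (groupCohomology.map f (𝟙 (Rep.res f N)) 1).hom ((H1π N).hom a) = 0 ↔
      ∃ b : N, ∀ d ∈ f.range, (a : G → N) d = N.ρ d b - b := by
  have h1 := H1π_comp_map_apply f (𝟙 (Rep.res f N)) a
  erw [h1]
  rw [H1π_eq_zero_iff]
  constructor
  · rintro ⟨b, hb⟩
    refine ⟨b, ?_⟩
    rintro _ ⟨h, rfl⟩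
    have := congrFun hb h
    rw [d₀₁_hom_apply] at this
    exact this.symm
  · rintro ⟨b, hb⟩
    refine ⟨b, ?_⟩
    funext h
    rw [d₀₁_hom_apply]
    exact (hb (f h) ⟨h, rfl⟩).symm

theorem mem_sha₁_iff {p : ℕ} [Fact p.Prime] (hp2 : p ≠ 2) (S : Finset Nat.Primes)
    (N : Rep (ZMod p) GQ) (y : groupCohomology.H1 N) :
    y ∈ sha₁ S N ↔ ∃ a : groupCohomology.cocycles₁ N, IsLevelConstantS₁ S (a : GQ → N) ∧
      (∀ ℓ : ↥S, ∃ b : N, ∀ d ∈ Dl ℓ.1, (a : GQ → N) d = N.ρ d b - b) ∧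
      (groupCohomology.H1π N).hom a = y := by
  have harch := subsingleton_H1_arch hp2 N
  simp only [sha₁, Submodule.mem_inf, mem_continuousH1S_iff, LinearMap.mem_ker]
  constructor
  · rintro ⟨⟨a, ha, rfl⟩, hloc⟩
    refine ⟨a, ha, fun ℓ => ?_, rfl⟩
    have h := congrFun hloc (Sum.inr ℓ)
    rw [← range_primeLocalToGlobal]
    exact (locRes_H1π_eq_zero_iff (primeLocalToGlobal ℓ.1) N a).1 h
  · rintro ⟨a, ha, hloc, rfl⟩
    refine ⟨⟨a, ha, rfl⟩, ?_⟩
    funext v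
    rcases v with v | ℓ
    · exact Subsingleton.elim (h := harch) _ _
    · refine (locRes_H1π_eq_zero_iff (primeLocalToGlobal ℓ.1) N a).2 ?_
      rw [range_primeLocalToGlobal]
      exact hloc ℓ

end Fermat.Agent.PT
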